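import Fermat.Agent.S56.P3.Glue

/-!
# S56 / P3, piece DETORD (helper312): `DetOrderStatement`

The mod `p` cyclotomic character is onto `𝔽_p^×`: for every `a` prime to `p` some `γ ∈ G_ℚ`
acts on `μ_p` by `μ ↦ μ ^ a` (irreducibility of the `p`-th cyclotomic polynomial over `ℚ`), so
if `det ρ̄` is cyclotomic, `det ρ̄ γ` has exact order `p - 1` for `a` a primitive root mod `p`.

* `exists_isCycExp` : `a.Coprime p → ∃ γ : GQ, IsCycExp p γ a`;
* `detOrder : DetOrderStatement`.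
-/

set_option autoImplicit false

open Polynomial

namespace Fermat.Agent.S56.P3.H312

/-- For every `a` prime to `p` some `γ ∈ G_ℚ` acts on `μ_p` by `μ ↦ μ ^ a`. -/
theorem exists_isCycExp (p : ℕ) [Fact p.Prime] (a : ℕ) (ha : a.Coprime p) :
    ∃ γ : GQ, Fermat.Agent.S56.IsCycExp p γ a := by
  have hp : p.Prime := Fact.out
  have : NeZero p := ⟨hp.ne_zero⟩
  have : NeZero ((p : ℕ) : ℚ) := ⟨by exact_mod_cast hp.ne_zero⟩
  obtain ⟨ζ, hζ⟩ := HasEnoughRootsOfUnity.exists_primitiveRoot (AlgebraicClosure ℚ) p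
  have hirr : Irreducible (cyclotomic p ℚ) := cyclotomic.irreducible_rat hp.pos
  have hmin : cyclotomic p ℚ = minpoly ℚ ζ := hζ.minpoly_eq_cyclotomic_of_irreducible hirr
  have hζa : IsPrimitiveRoot (ζ ^ a) p := hζ.pow_of_coprime a ha
  have hroot : aeval (ζ ^ a) (minpoly ℚ ζ) = 0 := by
    rw [← hmin, aeval_def, eval₂_eq_eval_map, map_cyclotomic, ← IsRoot.def,
      isRoot_cyclotomic_iff]
    exact hζa
  have halg : Algebra.IsAlgebraic ℚ (AlgebraicClosure ℚ) := AlgebraicClosure.isAlgebraic ℚ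
  have hcl : IsAlgClosure ℚ (AlgebraicClosure ℚ) := ⟨inferInstance, halg⟩
  have hnor : Normal ℚ (AlgebraicClosure ℚ) := IsAlgClosure.normal ℚ (AlgebraicClosure ℚ)
  obtain ⟨γ, hγ⟩ := minpoly.exists_algEquiv_of_root' (K := ℚ) (L := AlgebraicClosure ℚ)
    (halg.isAlgebraic ζ) hroot
  refine ⟨γ, fun μ hμ => ?_⟩
  obtain ⟨j, -, rfl⟩ := hζ.eq_pow_of_pow_eq_one hμ
  rw [map_pow, hγ, ← pow_mul, ← pow_mul, mul_comm]

/-- **DETORD.** -/
theorem detOrder : DetOrderStatement := by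
  intro k _ p _ ρbar hdet
  have hp : p.Prime := Fact.out
  have hp0 : (p : k) = 0 := natCast_eq_zero_of_detIsCyclotomic hdet
  have : CharP k p := by
    obtain ⟨r, hr⟩ := CharP.exists k
    have hdvd : r ∣ p := (CharP.cast_eq_zero_iff k r p).1 hp0
    rcases (Nat.dvd_prime hp).1 hdvd with h1 | h1
    · subst h1
      exact absurd rfl (CharP.char_ne_one k 1)
    · subst h1
      exact hr
  obtain ⟨g, hg⟩ := IsCyclic.exists_generator (α := (ZMod p)ˣ)
  have hord : orderOf g = p - 1 := by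
    rw [orderOf_eq_card_of_forall_mem_zpowers hg, Nat.card_eq_fintype_card, ZMod.card_units]
  have hcast : (((g : ZMod p).val : ℕ) : ZMod p) = g := ZMod.natCast_zmod_val _
  have hcop : ((g : ZMod p).val).Coprime p :=
    (ZMod.isUnit_iff_coprime _ p).1 (by rw [hcast]; exact g.isUnit)
  obtain ⟨γ, hγ⟩ := exists_isCycExp p _ hcop
  refine ⟨γ, ?_⟩
  rw [det_eq_of_isCycExp hdet hγ]
  have h1 : (((g : ZMod p).val : ℕ) : k) = (ZMod.castHom (dvd_refl p) k).toMonoidHom g := by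
    change _ = ZMod.castHom (dvd_refl p) k (g : ZMod p)
    rw [← hcast, map_natCast, hcast]
  rw [h1, orderOf_injective _ (ZMod.castHom (dvd_refl p) k).injective, orderOf_units, hord]

end Fermat.Agent.S56.P3.H312
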